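import Mathlib
import Fermat.Prelude.Def_AlgebraicGeometry_RelativeGroupLaw

/-!
# S27 / GRP, sub-leaf EXT (helper26): a group law on affine test schemes extends to all schemes

`Hom(-, J)` is a Zariski sheaf, and every scheme is covered by affine schemes.  Hence a natural
group structure on the sets `J(Spec A)` extends uniquely to a `RelativeGroupLaw`.

* `hom_ext_affine` : morphisms are determined by affine tests;
* `AffineFamily.glue`, `AffineFamily.comp_glue` : a natural family of morphisms on affine tests
  is induced by a unique morphism;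
* `AffineGroupLaw` : a group law on points with values in affine schemes;
* `AffineGroupLaw.extend : RelativeGroupLaw R f`, with `extend_mul_spec`, `extend_one_spec`,
  `extend_inv_spec`, `extend_isCommutative`.

Mathlib + Prelude only.
-/

set_option autoImplicit false
universe u
open CategoryTheory CategoryTheory.Limits AlgebraicGeometry NeronModelInfra GoodReductionJacobian

namespace Fermat.Agent.S27.H26

noncomputable section

/-! ### Morphisms are determined by affine tests -/

section Affine

variable {T J : Scheme.{u}}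

/-- Two morphisms of schemes which agree on all affine tests are equal. -/
theorem hom_ext_affine (g g' : T ⟶ J)
    (h : ∀ (A : CommRingCat.{u}) (ψ : Spec A ⟶ T), ψ ≫ g = ψ ≫ g') : g = g' :=
  Scheme.Cover.hom_ext T.affineOpenCover.openCover g g' (fun i => h _ (T.affineOpenCover.f i))

/-- A natural family of morphisms to `J` on the affine tests of `T`. -/
structure AffineFamily (T J : Scheme.{u}) where
  /-- the value on a test -/
  φ : ∀ (A : CommRingCat.{u}), (Spec A ⟶ T) → (Spec A ⟶ J)
  natural : ∀ (A B : CommRingCat.{u}) (ψ : Spec A ⟶ T) (χ : Spec B ⟶ Spec A),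
    χ ≫ φ A ψ = φ B (χ ≫ ψ)

namespace AffineFamily

variable (F : AffineFamily T J)

/-- The members of the family over the standard affine cover. -/
def onCover (i : T.affineOpenCover.openCover.I₀) : T.affineOpenCover.openCover.X i ⟶ J :=
  F.φ (T.affineOpenCover.X i) (T.affineOpenCover.f i)

lemma natural_onCover {A : CommRingCat.{u}} (i : T.affineOpenCover.openCover.I₀)
    (χ : Spec A ⟶ T.affineOpenCover.openCover.X i) :
    χ ≫ F.onCover i = F.φ A (χ ≫ T.affineOpenCover.openCover.f i) :=
  F.natural (T.affineOpenCover.X i) A (T.affineOpenCover.f i) χ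

lemma compat (i j : T.affineOpenCover.openCover.I₀) :
    pullback.fst (T.affineOpenCover.openCover.f i) (T.affineOpenCover.openCover.f j) ≫
        F.onCover i =
      pullback.snd (T.affineOpenCover.openCover.f i) (T.affineOpenCover.openCover.f j) ≫
        F.onCover j := by
  refine hom_ext_affine _ _ (fun A χ => ?_)
  have h1 := F.natural_onCover i
    (χ ≫ pullback.fst (T.affineOpenCover.openCover.f i) (T.affineOpenCover.openCover.f j))
  have h2 := F.natural_onCover j
    (χ ≫ pullback.snd (T.affineOpenCover.openCover.f i) (T.affineOpenCover.openCover.f j))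
  have h3 : (χ ≫ pullback.fst (T.affineOpenCover.openCover.f i)
      (T.affineOpenCover.openCover.f j)) ≫ T.affineOpenCover.openCover.f i =
      (χ ≫ pullback.snd (T.affineOpenCover.openCover.f i)
      (T.affineOpenCover.openCover.f j)) ≫ T.affineOpenCover.openCover.f j :=
    (Category.assoc _ _ _).trans
      ((congrArg (χ ≫ ·) pullback.condition).trans (Category.assoc _ _ _).symm)
  exact (Category.assoc _ _ _).symm.trans
    (h1.trans ((congrArg (F.φ A) h3).trans (h2.symm.trans (Category.assoc _ _ _))))

/-- The morphism induced by a natural family on affine tests. -/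
def glue : T ⟶ J :=
  Scheme.Cover.glueMorphisms T.affineOpenCover.openCover F.onCover F.compat

lemma ι_glue (i : T.affineOpenCover.openCover.I₀) :
    T.affineOpenCover.openCover.f i ≫ F.glue = F.onCover i :=
  Scheme.Cover.ι_glueMorphisms T.affineOpenCover.openCover _ F.compat i

/-- The glued morphism induces the family. -/
theorem comp_glue (A : CommRingCat.{u}) (ψ : Spec A ⟶ T) : ψ ≫ F.glue = F.φ A ψ := by
  refine Scheme.Cover.hom_ext (T.affineOpenCover.openCover.pullback₁ ψ) _ _ (fun i => ?_)
  refine hom_ext_affine _ _ (fun B χ => ?_)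
  change χ ≫ pullback.fst ψ (T.affineOpenCover.openCover.f i) ≫ ψ ≫ F.glue =
    χ ≫ pullback.fst ψ (T.affineOpenCover.openCover.f i) ≫ F.φ A ψ
  have hc : pullback.fst ψ (T.affineOpenCover.openCover.f i) ≫ ψ =
      pullback.snd ψ (T.affineOpenCover.openCover.f i) ≫ T.affineOpenCover.openCover.f i :=
    pullback.condition
  have h1 := F.natural_onCover i (χ ≫ pullback.snd ψ (T.affineOpenCover.openCover.f i))
  have h2 := F.natural A B ψ (χ ≫ pullback.fst ψ (T.affineOpenCover.openCover.f i))
  have h3 : (χ ≫ pullback.snd ψ (T.affineOpenCover.openCover.f i)) ≫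
      T.affineOpenCover.openCover.f i =
      (χ ≫ pullback.fst ψ (T.affineOpenCover.openCover.f i)) ≫ ψ :=
    (Category.assoc _ _ _).trans ((congrArg (χ ≫ ·) hc.symm).trans (Category.assoc _ _ _).symm)
  have h4 : χ ≫ pullback.fst ψ (T.affineOpenCover.openCover.f i) ≫ ψ ≫ F.glue =
      (χ ≫ pullback.snd ψ (T.affineOpenCover.openCover.f i)) ≫ F.onCover i := by
    have e1 : pullback.fst ψ (T.affineOpenCover.openCover.f i) ≫ ψ ≫ F.glue =
        pullback.snd ψ (T.affineOpenCover.openCover.f i) ≫ F.onCover i :=
      (Category.assoc _ _ _).symm.trans ((congrArg (· ≫ F.glue) hc).trans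
        ((Category.assoc _ _ _).trans (congrArg (pullback.snd ψ _ ≫ ·) (F.ι_glue i))))
    exact (congrArg (χ ≫ ·) e1).trans (Category.assoc _ _ _).symm
  exact h4.trans (h1.trans ((congrArg (F.φ B) h3).trans
    (h2.symm.trans (Category.assoc _ _ _))))

/-- Uniqueness of the glued morphism. -/
theorem eq_glue (g : T ⟶ J) (h : ∀ (A : CommRingCat.{u}) (ψ : Spec A ⟶ T), ψ ≫ g = F.φ A ψ) :
    g = F.glue :=
  hom_ext_affine _ _ (fun A ψ => (h A ψ).trans (F.comp_glue A ψ).symm)

end AffineFamily

end Affine

/-! ### Group laws on affine tests -/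

section Law

variable {R : Type u} [CommRing R] {J : Scheme.{u}} {f : J ⟶ Spec (CommRingCat.of R)}

/-- A group law on the points of `J` with values in affine schemes. -/
structure AffineGroupLaw (R : Type u) [CommRing R] {J : Scheme.{u}}
    (f : J ⟶ Spec (CommRingCat.of R)) where
  mul : ∀ {A : CommRingCat.{u}} (t : Spec A ⟶ Spec (CommRingCat.of R)),
    SchemeHomOver t f → SchemeHomOver t f → SchemeHomOver t f
  one : ∀ {A : CommRingCat.{u}} (t : Spec A ⟶ Spec (CommRingCat.of R)), SchemeHomOver t f
  inv : ∀ {A : CommRingCat.{u}} (t : Spec A ⟶ Spec (CommRingCat.of R)),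
    SchemeHomOver t f → SchemeHomOver t f
  mul_assoc : ∀ {A : CommRingCat.{u}} (t : Spec A ⟶ Spec (CommRingCat.of R))
    (x y z : SchemeHomOver t f), mul t (mul t x y) z = mul t x (mul t y z)
  one_mul : ∀ {A : CommRingCat.{u}} (t : Spec A ⟶ Spec (CommRingCat.of R))
    (x : SchemeHomOver t f), mul t (one t) x = x
  mul_one : ∀ {A : CommRingCat.{u}} (t : Spec A ⟶ Spec (CommRingCat.of R))
    (x : SchemeHomOver t f), mul t x (one t) = x
  inv_mul_cancel : ∀ {A : CommRingCat.{u}} (t : Spec A ⟶ Spec (CommRingCat.of R))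
    (x : SchemeHomOver t f), mul t (inv t x) x = one t
  mul_natural : ∀ {A B : CommRingCat.{u}} (t : Spec A ⟶ Spec (CommRingCat.of R))
    (t' : Spec B ⟶ Spec (CommRingCat.of R)) (ψ : Spec B ⟶ Spec A) (hψ : ψ ≫ t = t')
    (x y : SchemeHomOver t f),
    schemeHomOverComp ψ hψ (mul t x y) =
      mul t' (schemeHomOverComp ψ hψ x) (schemeHomOverComp ψ hψ y)

namespace AffineGroupLaw

variable (G : AffineGroupLaw R f)

/-- The group of points with values in `Spec A`. -/
@[reducible]
def pointGroup {A : CommRingCat.{u}} (t : Spec A ⟶ Spec (CommRingCat.of R)) :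
    Group (SchemeHomOver t f) where
  mul x y := G.mul t x y
  one := G.one t
  inv x := G.inv t x
  mul_assoc := G.mul_assoc t
  one_mul := G.one_mul t
  mul_one := G.mul_one t
  inv_mul_cancel := G.inv_mul_cancel t

/-- Pull-back of points as a group homomorphism. -/
def compHom {A B : CommRingCat.{u}} (t : Spec A ⟶ Spec (CommRingCat.of R))
    (t' : Spec B ⟶ Spec (CommRingCat.of R)) (ψ : Spec B ⟶ Spec A) (hψ : ψ ≫ t = t') :
    letI := G.pointGroup t
    letI := G.pointGroup t'
    SchemeHomOver t f →* SchemeHomOver t' f :=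
  letI := G.pointGroup t
  letI := G.pointGroup t'
  MonoidHom.mk' (schemeHomOverComp ψ hψ) (G.mul_natural t t' ψ hψ)

theorem one_natural {A B : CommRingCat.{u}} (t : Spec A ⟶ Spec (CommRingCat.of R))
    (t' : Spec B ⟶ Spec (CommRingCat.of R)) (ψ : Spec B ⟶ Spec A) (hψ : ψ ≫ t = t') :
    schemeHomOverComp ψ hψ (G.one t) = G.one t' :=
  letI := G.pointGroup t
  letI := G.pointGroup t'
  map_one (G.compHom t t' ψ hψ)

theorem inv_natural {A B : CommRingCat.{u}} (t : Spec A ⟶ Spec (CommRingCat.of R))
    (t' : Spec B ⟶ Spec (CommRingCat.of R)) (ψ : Spec B ⟶ Spec A) (hψ : ψ ≫ t = t')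
    (x : SchemeHomOver t f) :
    schemeHomOverComp ψ hψ (G.inv t x) = G.inv t' (schemeHomOverComp ψ hψ x) :=
  letI := G.pointGroup t
  letI := G.pointGroup t'
  map_inv (G.compHom t t' ψ hψ) x

theorem mul_congr {A : CommRingCat.{u}} {t t' : Spec A ⟶ Spec (CommRingCat.of R)} (h : t = t')
    (x y : SchemeHomOver t f) (x' y' : SchemeHomOver t' f) (hx : x.1 = x'.1) (hy : y.1 = y'.1) :
    (G.mul t x y).1 = (G.mul t' x' y').1 := by
  subst h
  obtain rfl : x = x' := Subtype.ext hx
  obtain rfl : y = y' := Subtype.ext hy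
  rfl

theorem one_congr {A : CommRingCat.{u}} {t t' : Spec A ⟶ Spec (CommRingCat.of R)} (h : t = t') :
    (G.one t).1 = (G.one t').1 := by
  subst h
  rfl

theorem inv_congr {A : CommRingCat.{u}} {t t' : Spec A ⟶ Spec (CommRingCat.of R)} (h : t = t')
    (x : SchemeHomOver t f) (x' : SchemeHomOver t' f) (hx : x.1 = x'.1) :
    (G.inv t x).1 = (G.inv t' x').1 := by
  subst h
  obtain rfl : x = x' := Subtype.ext hx
  rfl

/-! #### The extension -/

section Extend

variable {T : Scheme.{u}} (t : T ⟶ Spec (CommRingCat.of R))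

/-- The family defining the product of two points. -/
def mulFamily (x y : SchemeHomOver t f) : AffineFamily T J where
  φ A ψ := (G.mul (ψ ≫ t) (schemeHomOverComp ψ rfl x) (schemeHomOverComp ψ rfl y)).1
  natural A B ψ χ := by
    have h := congrArg Subtype.val (G.mul_natural (ψ ≫ t) (χ ≫ ψ ≫ t) χ rfl
      (schemeHomOverComp ψ rfl x) (schemeHomOverComp ψ rfl y))
    refine h.trans (G.mul_congr (Category.assoc χ ψ t).symm _ _ _ _ ?_ ?_)
    · exact (Category.assoc χ ψ x.1).symm
    · exact (Category.assoc χ ψ y.1).symm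

/-- The family defining the unit point. -/
def oneFamily : AffineFamily T J where
  φ A ψ := (G.one (ψ ≫ t)).1
  natural A B ψ χ := by
    have h := congrArg Subtype.val (G.one_natural (ψ ≫ t) (χ ≫ ψ ≫ t) χ rfl)
    exact h.trans (G.one_congr (Category.assoc χ ψ t).symm)

/-- The family defining the inverse of a point. -/
def invFamily (x : SchemeHomOver t f) : AffineFamily T J where
  φ A ψ := (G.inv (ψ ≫ t) (schemeHomOverComp ψ rfl x)).1
  natural A B ψ χ := by
    have h := congrArg Subtype.val (G.inv_natural (ψ ≫ t) (χ ≫ ψ ≫ t) χ rfl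
      (schemeHomOverComp ψ rfl x))
    refine h.trans (G.inv_congr (Category.assoc χ ψ t).symm _ _ ?_)
    exact (Category.assoc χ ψ x.1).symm

/-- The product of two points with values in an arbitrary scheme. -/
def emul (x y : SchemeHomOver t f) : SchemeHomOver t f :=
  ⟨(G.mulFamily t x y).glue, hom_ext_affine _ _ (fun A ψ => by
    rw [← Category.assoc, AffineFamily.comp_glue]
    exact (G.mul (ψ ≫ t) _ _).2)⟩

/-- The unit point with values in an arbitrary scheme. -/
def eone : SchemeHomOver t f :=
  ⟨(G.oneFamily t).glue, hom_ext_affine _ _ (fun A ψ => by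
    rw [← Category.assoc, AffineFamily.comp_glue]
    exact (G.one (ψ ≫ t)).2)⟩

/-- The inverse of a point with values in an arbitrary scheme. -/
def einv (x : SchemeHomOver t f) : SchemeHomOver t f :=
  ⟨(G.invFamily t x).glue, hom_ext_affine _ _ (fun A ψ => by
    rw [← Category.assoc, AffineFamily.comp_glue]
    exact (G.inv (ψ ≫ t) _).2)⟩

variable {t}

theorem comp_emul (x y : SchemeHomOver t f) {A : CommRingCat.{u}} (ψ : Spec A ⟶ T) :
    schemeHomOverComp ψ rfl (G.emul t x y) =
      G.mul (ψ ≫ t) (schemeHomOverComp ψ rfl x) (schemeHomOverComp ψ rfl y) :=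
  Subtype.ext ((G.mulFamily t x y).comp_glue A ψ)

theorem comp_eone {A : CommRingCat.{u}} (ψ : Spec A ⟶ T) :
    schemeHomOverComp ψ rfl (G.eone t) = G.one (ψ ≫ t) :=
  Subtype.ext ((G.oneFamily t).comp_glue A ψ)

theorem comp_einv (x : SchemeHomOver t f) {A : CommRingCat.{u}} (ψ : Spec A ⟶ T) :
    schemeHomOverComp ψ rfl (G.einv t x) = G.inv (ψ ≫ t) (schemeHomOverComp ψ rfl x) :=
  Subtype.ext ((G.invFamily t x).comp_glue A ψ)

/-- Points are determined by their pull-backs to affine tests. -/
theorem point_ext {x y : SchemeHomOver t f}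
    (h : ∀ (A : CommRingCat.{u}) (ψ : Spec A ⟶ T),
      schemeHomOverComp ψ rfl x = schemeHomOverComp ψ rfl y) : x = y :=
  Subtype.ext (hom_ext_affine _ _ (fun A ψ => congrArg Subtype.val (h A ψ)))

end Extend

/-- **The extension** of a group law on affine tests to a relative group law. -/
def extend : RelativeGroupLaw R f where
  mul t x y := G.emul t x y
  one t := G.eone t
  inv t x := G.einv t x
  mul_assoc t x y z := point_ext (fun A ψ => by
    rw [comp_emul, comp_emul, comp_emul, comp_emul, G.mul_assoc])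
  one_mul t x := point_ext (fun A ψ => by rw [comp_emul, comp_eone, G.one_mul])
  mul_one t x := point_ext (fun A ψ => by rw [comp_emul, comp_eone, G.mul_one])
  inv_mul_cancel t x := point_ext (fun A ψ => by
    rw [comp_emul, comp_einv, comp_eone, G.inv_mul_cancel])
  mul_natural t t' ψ hψ x y := by
    subst hψ
    refine point_ext (fun A χ => ?_)
    rw [comp_emul]
    refine Subtype.ext ?_
    have h1 : (schemeHomOverComp χ rfl (schemeHomOverComp ψ rfl (G.emul t x y))).1 =
        (schemeHomOverComp (χ ≫ ψ) rfl (G.emul t x y)).1 := (Category.assoc χ ψ _).symm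
    refine h1.trans ?_
    rw [comp_emul]
    exact G.mul_congr (Category.assoc χ ψ t) _ _ _ _ (Category.assoc χ ψ x.1)
      (Category.assoc χ ψ y.1)

/-- On affine tests the extension is the given law. -/
theorem extend_mul_spec {A : CommRingCat.{u}} (t : Spec A ⟶ Spec (CommRingCat.of R))
    (x y : SchemeHomOver t f) : G.extend.mul t x y = G.mul t x y :=
  point_ext (fun _ ψ => (G.comp_emul x y ψ).trans (G.mul_natural t (ψ ≫ t) ψ rfl x y).symm)

theorem extend_one_spec {A : CommRingCat.{u}} (t : Spec A ⟶ Spec (CommRingCat.of R)) :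
    G.extend.one t = G.one t :=
  point_ext (fun _ ψ => (G.comp_eone ψ).trans (G.one_natural t (ψ ≫ t) ψ rfl).symm)

theorem extend_inv_spec {A : CommRingCat.{u}} (t : Spec A ⟶ Spec (CommRingCat.of R))
    (x : SchemeHomOver t f) : G.extend.inv t x = G.inv t x :=
  point_ext (fun _ ψ => (G.comp_einv x ψ).trans (G.inv_natural t (ψ ≫ t) ψ rfl x).symm)

/-- The extension of a commutative law is commutative. -/
theorem extend_isCommutative
    (hc : ∀ {A : CommRingCat.{u}} (t : Spec A ⟶ Spec (CommRingCat.of R))
      (x y : SchemeHomOver t f), G.mul t x y = G.mul t y x) : G.extend.IsCommutative :=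
  fun t x y => point_ext (fun A ψ => by
    change schemeHomOverComp ψ rfl (G.emul t x y) = schemeHomOverComp ψ rfl (G.emul t y x)
    rw [comp_emul, comp_emul, hc])

end AffineGroupLaw

end Law

end

end Fermat.Agent.S27.H26
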