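import Fermat.Agent.S27.H26.ExtendAffine
import Fermat.Agent.S25.Defs

/-!
# S27 / GRP, sub-leaf EXT (helper26): group laws on the points with values in `k`-algebras

A group law on the sets `J(A) = SchemeHomOver (specStr k A) f`, `A` a `k`-algebra, natural in
`k`-algebra homomorphisms, extends to a `RelativeGroupLaw k f` which restricts to the given law
on every `specStr k A` (`AlgGroupLaw.exists_relativeGroupLaw`).
-/

set_option autoImplicit false
set_option linter.style.haveILetI false
universe u
open CategoryTheory CategoryTheory.Limits AlgebraicGeometry NeronModelInfra GoodReductionJacobian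

namespace Fermat.Agent.S27.H26

open Fermat.Agent.S25

noncomputable section

variable {k : Type u} [CommRing k] {J : Scheme.{u}} {f : J ⟶ Spec (CommRingCat.of k)}

/-- Pull-back of an `A`-valued point along a `k`-algebra homomorphism `A → B`. -/
def algComp {A B : Type u} [CommRing A] [Algebra k A] [CommRing B] [Algebra k B]
    (φ : A →ₐ[k] B) (x : SchemeHomOver (specStr k A) f) : SchemeHomOver (specStr k B) f :=
  schemeHomOverComp (specHomOver k φ).1 (specHomOver k φ).2 x

/-- A group law on the points of `J` with values in `k`-algebras. -/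
structure AlgGroupLaw (k : Type u) [CommRing k] {J : Scheme.{u}}
    (f : J ⟶ Spec (CommRingCat.of k)) where
  mul : ∀ (A : Type u) [CommRing A] [Algebra k A],
    SchemeHomOver (specStr k A) f → SchemeHomOver (specStr k A) f →
      SchemeHomOver (specStr k A) f
  one : ∀ (A : Type u) [CommRing A] [Algebra k A], SchemeHomOver (specStr k A) f
  inv : ∀ (A : Type u) [CommRing A] [Algebra k A],
    SchemeHomOver (specStr k A) f → SchemeHomOver (specStr k A) f
  mul_assoc : ∀ (A : Type u) [CommRing A] [Algebra k A] (x y z : SchemeHomOver (specStr k A) f),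
    mul A (mul A x y) z = mul A x (mul A y z)
  one_mul : ∀ (A : Type u) [CommRing A] [Algebra k A] (x : SchemeHomOver (specStr k A) f),
    mul A (one A) x = x
  mul_one : ∀ (A : Type u) [CommRing A] [Algebra k A] (x : SchemeHomOver (specStr k A) f),
    mul A x (one A) = x
  inv_mul_cancel : ∀ (A : Type u) [CommRing A] [Algebra k A]
    (x : SchemeHomOver (specStr k A) f), mul A (inv A x) x = one A
  mul_natural : ∀ (A B : Type u) [CommRing A] [Algebra k A] [CommRing B] [Algebra k B]
    (φ : A →ₐ[k] B) (x y : SchemeHomOver (specStr k A) f),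
    algComp φ (mul A x y) = mul B (algComp φ x) (algComp φ y)

/-- Change of the structure morphism of a point along an equality. -/
def castPt {T : Scheme.{u}} {t t' : T ⟶ Spec (CommRingCat.of k)} (h : t = t')
    (x : SchemeHomOver t f) : SchemeHomOver t' f :=
  ⟨x.1, x.2.trans h⟩

/-- The `k`-algebra structure on `A` defined by a morphism `Spec A ⟶ Spec k`. -/
@[reducible]
def algOf {A : CommRingCat.{u}} (t : Spec A ⟶ Spec (CommRingCat.of k)) : Algebra k A :=
  (Spec.preimage t).hom.toAlgebra

lemma specStr_algOf {A : CommRingCat.{u}} (t : Spec A ⟶ Spec (CommRingCat.of k)) :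
    letI := algOf t
    specStr k A = t := by
  letI := algOf t
  change Spec.map (CommRingCat.ofHom (Spec.preimage t).hom) = t
  exact Spec.map_preimage t

namespace AlgGroupLaw

variable (H : AlgGroupLaw k f)

theorem mul_inst_congr {A : Type u} [CommRing A] (i₁ i₂ : Algebra k A) (h : i₁ = i₂)
    (x y : SchemeHomOver (@specStr k _ A _ i₁) f) (x' y' : SchemeHomOver (@specStr k _ A _ i₂) f)
    (hx : x.1 = x'.1) (hy : y.1 = y'.1) :
    (@AlgGroupLaw.mul k _ J f H A _ i₁ x y).1 = (@AlgGroupLaw.mul k _ J f H A _ i₂ x' y').1 := by
  subst h
  obtain rfl : x = x' := Subtype.ext hx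
  obtain rfl : y = y' := Subtype.ext hy
  rfl

theorem one_inst_congr {A : Type u} [CommRing A] (i₁ i₂ : Algebra k A) (h : i₁ = i₂) :
    (@AlgGroupLaw.one k _ J f H A _ i₁).1 = (@AlgGroupLaw.one k _ J f H A _ i₂).1 := by
  subst h
  rfl

theorem inv_inst_congr {A : Type u} [CommRing A] (i₁ i₂ : Algebra k A) (h : i₁ = i₂)
    (x : SchemeHomOver (@specStr k _ A _ i₁) f) (x' : SchemeHomOver (@specStr k _ A _ i₂) f)
    (hx : x.1 = x'.1) :
    (@AlgGroupLaw.inv k _ J f H A _ i₁ x).1 = (@AlgGroupLaw.inv k _ J f H A _ i₂ x').1 := by
  subst h
  obtain rfl : x = x' := Subtype.ext hx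
  rfl

/-- The product on points with values in `Spec A`, for an arbitrary structure morphism. -/
def amul {A : CommRingCat.{u}} (t : Spec A ⟶ Spec (CommRingCat.of k))
    (x y : SchemeHomOver t f) : SchemeHomOver t f :=
  letI := algOf t
  castPt (specStr_algOf t) (H.mul A (castPt (specStr_algOf t).symm x)
    (castPt (specStr_algOf t).symm y))

/-- The unit point with values in `Spec A`, for an arbitrary structure morphism. -/
def aone {A : CommRingCat.{u}} (t : Spec A ⟶ Spec (CommRingCat.of k)) : SchemeHomOver t f :=
  letI := algOf t
  castPt (specStr_algOf t) (H.one A)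

/-- The inverse on points with values in `Spec A`, for an arbitrary structure morphism. -/
def ainv {A : CommRingCat.{u}} (t : Spec A ⟶ Spec (CommRingCat.of k))
    (x : SchemeHomOver t f) : SchemeHomOver t f :=
  letI := algOf t
  castPt (specStr_algOf t) (H.inv A (castPt (specStr_algOf t).symm x))

/-- The `k`-algebra homomorphism defined by a morphism `Spec B ⟶ Spec A` over `Spec k`. -/
def algHomOf {A B : CommRingCat.{u}} (t : Spec A ⟶ Spec (CommRingCat.of k))
    (t' : Spec B ⟶ Spec (CommRingCat.of k)) (ψ : Spec B ⟶ Spec A) (hψ : ψ ≫ t = t') :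
    letI := algOf t
    letI := algOf t'
    A →ₐ[k] B :=
  letI := algOf t
  letI := algOf t'
  { (Spec.preimage ψ).hom with
    commutes' := fun r => by
      have h : Spec.preimage t ≫ Spec.preimage ψ = Spec.preimage t' := by
        apply Spec.map_injective
        rw [Spec.map_comp, Spec.map_preimage, Spec.map_preimage, Spec.map_preimage, hψ]
      exact congr($h r) }

lemma specMap_algHomOf {A B : CommRingCat.{u}} (t : Spec A ⟶ Spec (CommRingCat.of k))
    (t' : Spec B ⟶ Spec (CommRingCat.of k)) (ψ : Spec B ⟶ Spec A) (hψ : ψ ≫ t = t') :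
    letI := algOf t
    letI := algOf t'
    (specHomOver k (algHomOf t t' ψ hψ)).1 = ψ := by
  letI := algOf t
  letI := algOf t'
  change Spec.map (CommRingCat.ofHom (Spec.preimage ψ).hom) = ψ
  exact Spec.map_preimage ψ

/-- The associated group law on affine tests. -/
def toAffine : AffineGroupLaw k f where
  mul t x y := H.amul t x y
  one t := H.aone t
  inv t x := H.ainv t x
  mul_assoc t x y z := by
    letI := algOf t
    have h := congrArg Subtype.val (H.mul_assoc _ (castPt (specStr_algOf t).symm x)
      (castPt (specStr_algOf t).symm y) (castPt (specStr_algOf t).symm z))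
    exact Subtype.ext h
  one_mul t x := by
    letI := algOf t
    have h := congrArg Subtype.val (H.one_mul _ (castPt (specStr_algOf t).symm x))
    exact Subtype.ext h
  mul_one t x := by
    letI := algOf t
    have h := congrArg Subtype.val (H.mul_one _ (castPt (specStr_algOf t).symm x))
    exact Subtype.ext h
  inv_mul_cancel t x := by
    letI := algOf t
    have h := congrArg Subtype.val (H.inv_mul_cancel _ (castPt (specStr_algOf t).symm x))
    exact Subtype.ext h
  mul_natural {A B} t t' ψ hψ x y := by
    letI := algOf t
    letI := algOf t'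
    have h := congrArg Subtype.val (H.mul_natural A B (algHomOf t t' ψ hψ)
      (castPt (specStr_algOf t).symm x) (castPt (specStr_algOf t).symm y))
    refine Subtype.ext ?_
    have e := specMap_algHomOf t t' ψ hψ
    change ψ ≫ (H.mul A (castPt (specStr_algOf t).symm x)
      (castPt (specStr_algOf t).symm y)).1 = _
    have h' : (specHomOver k (algHomOf t t' ψ hψ)).1 ≫ (H.mul A (castPt (specStr_algOf t).symm x)
      (castPt (specStr_algOf t).symm y)).1 = _ := h
    rw [e] at h'
    refine h'.trans ?_
    change (H.mul B _ _).1 = (H.mul B _ _).1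
    congr 1
    congr 1
    · exact Subtype.ext (congrArg (· ≫ x.1) e)
    · exact Subtype.ext (congrArg (· ≫ y.1) e)

/-- The algebra structure defined by `specStr k A` is the given one. -/
lemma algOf_specStr (A : Type u) [CommRing A] [inst : Algebra k A] :
    algOf (A := CommRingCat.of A) (specStr k A) = inst := by
  refine Algebra.algebra_ext _ _ (fun r => ?_)
  change (Spec.preimage (Spec.map (CommRingCat.ofHom (algebraMap k A)))).hom r = algebraMap k A r
  rw [Spec.preimage_map]
  rfl

theorem toAffine_mul (A : Type u) [CommRing A] [Algebra k A]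
    (x y : SchemeHomOver (specStr k A) f) :
    H.toAffine.mul (A := CommRingCat.of A) (specStr k A) x y = H.mul A x y :=
  Subtype.ext (H.mul_inst_congr _ _ (algOf_specStr A) _ _ _ _ rfl rfl)

theorem toAffine_one (A : Type u) [CommRing A] [Algebra k A] :
    H.toAffine.one (A := CommRingCat.of A) (specStr k A) = H.one A :=
  Subtype.ext (H.one_inst_congr _ _ (algOf_specStr A))

theorem toAffine_inv (A : Type u) [CommRing A] [Algebra k A]
    (x : SchemeHomOver (specStr k A) f) :
    H.toAffine.inv (A := CommRingCat.of A) (specStr k A) x = H.inv A x :=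
  Subtype.ext (H.inv_inst_congr _ _ (algOf_specStr A) _ _ rfl)

/-- The relative group law extending a group law on points with values in `k`-algebras. -/
def extend : RelativeGroupLaw k f := H.toAffine.extend

theorem extend_mul (A : Type u) [CommRing A] [Algebra k A]
    (x y : SchemeHomOver (specStr k A) f) : H.extend.mul (specStr k A) x y = H.mul A x y :=
  (H.toAffine.extend_mul_spec (A := CommRingCat.of A) (specStr k A) x y).trans
    (H.toAffine_mul A x y)

theorem extend_one (A : Type u) [CommRing A] [Algebra k A] :
    H.extend.one (specStr k A) = H.one A :=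
  (H.toAffine.extend_one_spec (A := CommRingCat.of A) (specStr k A)).trans (H.toAffine_one A)

theorem extend_inv (A : Type u) [CommRing A] [Algebra k A]
    (x : SchemeHomOver (specStr k A) f) : H.extend.inv (specStr k A) x = H.inv A x :=
  (H.toAffine.extend_inv_spec (A := CommRingCat.of A) (specStr k A) x).trans
    (H.toAffine_inv A x)

/-- **Extension theorem.**  A group law on the points with values in `k`-algebras extends to a
relative group law, commutative if the given law is. -/
theorem exists_relativeGroupLaw :
    ∃ L : RelativeGroupLaw k f,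
      (∀ (A : Type u) [CommRing A] [Algebra k A] (x y : SchemeHomOver (specStr k A) f),
        L.mul (specStr k A) x y = H.mul A x y) ∧
      ((∀ (A : Type u) [CommRing A] [Algebra k A] (x y : SchemeHomOver (specStr k A) f),
        H.mul A x y = H.mul A y x) → L.IsCommutative) := by
  refine ⟨H.extend, fun A _ _ x y => H.extend_mul A x y, fun hc => ?_⟩
  · refine H.toAffine.extend_isCommutative (fun {A} t x y => ?_)
    letI := algOf t
    have h := congrArg Subtype.val (hc A (castPt (specStr_algOf t).symm x)
      (castPt (specStr_algOf t).symm y))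
    exact Subtype.ext h

end AlgGroupLaw

end

end Fermat.Agent.S27.H26
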